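/-
S30: the LIMIT-LEVEL INTERFACE between the Eichler-Shimura tower `Kum N (p ^ n)` and the soft algebra
(ES/D/Adic).  All relations are EXACT relations between matrices over the complete ring `𝒪`.
-/
import Fermat.Agent.ES.D.Defs

set_option autoImplicit false

namespace Fermat.Agent.S30

open Fermat.Agent.ES Fermat.Agent.ES.D

/-- **The `p`-adic Eichler-Shimura module of level `N` with coefficients in `𝒪`** (think:
`T_p J_0(N) ⊗ 𝒪` in coordinates; in fact `(lim_n Kum N (p ^ n)) ⊗ 𝒪`, whose rank `r` is not needed). -/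
structure AdicTower (N : ℕ) [NeZero N] (p : ℕ) (𝒪 : Type) [CommRing 𝒪] (I : Ideal 𝒪) : Type 1 where
  /-- the rank -/
  r : ℕ
  /-- the Galois action -/
  R : GQ →* Matrix (Fin r) (Fin r) 𝒪
  /-- the Hecke operators -/
  T : GoodPrime N → Matrix (Fin r) (Fin r) 𝒪
  T_comm : ∀ ℓ ℓ' : GoodPrime N, Commute (T ℓ) (T ℓ')
  T_R_comm : ∀ (ℓ : GoodPrime N) (σ : GQ), Commute (T ℓ) (R σ)
  /-- continuity -/
  level : ∀ n : ℕ, ∃ L : IntermediateField ℚ Qb, FiniteDimensional ℚ L ∧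
    ∀ σ : GQ, (∀ x ∈ L, σ x = x) → ∀ i j, (R σ - 1) i j ∈ I ^ n
  /-- unramified outside `N p` -/
  unram : ∀ q : ℕ, q.Prime → ¬ q ∣ N * p → ∀ A : ValuationSubring Qb, A.LiesOverPrime q →
    ∀ σ ∈ A.inertiaSubgroupIn ℚ, R σ = 1
  /-- the Eichler-Shimura relation -/
  es : ∀ ℓ : GoodPrime N, ℓ.1 ≠ p → ∀ A : ValuationSubring Qb, A.LiesOverPrime ℓ.1 →
    ∀ φ : GQ, A.IsFrobeniusAt φ ℓ.1 → R φ * R φ - T ℓ * R φ + (ℓ.1 : 𝒪) • 1 = 0
  /-- every character of the Hecke algebra occurs -/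
  eigen : ∀ (K : Type) [Field K] [Algebra 𝒪 K] (S : Set ℕ)
    (χ : CuspForm.heckeAlgebra N 2 S →+* K), ∃ v : Fin r → K, v ≠ 0 ∧
      ∀ (ℓ : ℕ) (hℓ : ℓ.Prime) (hℓN : ¬ ℓ ∣ N) (hℓS : ℓ ∉ S),
        ((T ⟨ℓ, hℓ, hℓN⟩).map (algebraMap 𝒪 K)).mulVec v
          = χ (CuspForm.heckeAlgebra.T hℓ hℓN hℓS) • v

end Fermat.Agent.S30
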