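/-
S30/Padic (Mathlib only): coordinates on a "Tate module".

Let `T` be an abelian group, `p` a prime, such that `T` has no `p`-torsion and `T / pT` is
finite (`IsTate p T`).  Let `v : Fin s → T` be independent modulo `p`.  Let `𝒪` be an `I`-adically
complete ring with `p ∈ I`.  Then there are `r`, an additive map `lam : T →+ 𝒪 ^ r` and a RING HOMOMORPHISM
`hat : End(T) →+* M_r(𝒪)` with `hat Φ *ᵥ lam x = lam (Φ x)`, every standard basis vector is in the image of
`lam`, and `lam (v j)` is the standard basis vector `emb j`.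

COMPLETE PROOF.
(0) `Q := T ⧸ pT` (`pT := (zsmulAddGroupHom (p : ℤ)).range` or `AddSubgroup.map`), a finite `ZMod p`-vector
   space (`AddCommGroup.zmodModule`; finite by `hT.fin`).  The images of `v j` are linearly independent over `ZMod p` by `hv`
   (`Fintype.linearIndependent_iff`; write a coefficient `c : ZMod p` as `((c.val : ℤ) : ZMod p)`; `c • mk x = mk (c.val • x)`;
   `(ZMod.intCast_zmod_eq_zero_iff_dvd _ p)`).  Extend to a basis (`Module.Basis.sumExtend`, or `LinearIndependent.extend` /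
   `Module.Basis.extend`; or avoid it: choose a complement basis of `Q ⧸ span`), reindex by `Fin r`; lift the new basis vectors to `T`.
   Result: `e : Fin r → T`, `emb` injective, `e (emb j) = v j`,
   (G1) `∀ x, ∃ a : Fin r → ℤ, ∃ y, x = ∑ i, a i • e i + p • y`;
   (U1) `∑ i, a i • e i = p • y → ∀ i, (p : ℤ) ∣ a i`.
(1) (Gn) `∀ n x, ∃ a y, x = ∑ i, a i • e i + p ^ n • y`: induction on `n` ((G1) applied to `y`).
   (Un) `∑ i, a i • e i = p ^ n • y → ∀ i, (p ^ n : ℤ) ∣ a i`: induction on `n`: by (U1) `a = p b`; then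
   `p • (∑ b i • e i - p ^ n • y) = 0`, so by `hT.tf` `∑ b i • e i = p ^ n • y`.
(2) choose `c n x : Fin r → ℤ` from (Gn).  By (Un) `c (n+1) x i ≡ c n x i mod p ^ n`.  `IsPrecomplete.prec` gives `lam x i : 𝒪` with
   `lam x i - c n x i ∈ I ^ n` for all `n`.  KEY (L): if `x = ∑ a i • e i + p ^ n • y` then `lam x i - a i ∈ I ^ n` (by (Un), `a ≡ c n x`).
   Additivity, `lam (e i) = Pi.single i 1`: from (L) and `IsHausdorff.haus` (an element of `I ^ n` for all `n` is `0`).
(3) `hat Φ := Matrix.of fun i j => lam (Φ (e j)) i`.  For `x = ∑ a j • e j + p ^ n • y`, additivity gives the EXACT formulas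
   `lam x = ∑ a j • single j 1 + p ^ n • lam y`, `lam (Φ x) = ∑ a j • lam (Φ (e j)) + p ^ n • lam (Φ y)`; so
   `hat Φ *ᵥ lam x - lam (Φ x) = p ^ n • (..)` has coordinates in `I ^ n` for all `n`: it is `0`.
(4) ring hom: compare columns: `(hat Φ * hat Ψ) *ᵥ single j 1 = hat Φ *ᵥ lam (Ψ (e j)) = lam (Φ (Ψ (e j)))`
   (`Matrix.mulVec_mulVec`, `Matrix.mulVec_single_one`, `Matrix.ext_of_mulVec_single`); `hat 1 = 1`, `hat (Φ + Ψ)`, `hat 0` from additivity of `lam`.
-/
import Mathlib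

set_option autoImplicit false

namespace Fermat.Agent.S30

/-- `T` looks like a finitely generated free `ℤ_p`-module (neither completeness nor separatedness is needed). -/
structure IsTate (p : ℕ) (T : Type) [AddCommGroup T] : Prop where
  tf : ∀ x : T, p • x = 0 → x = 0
  fin : ∃ F : Finset T, ∀ x : T, ∃ f ∈ F, ∃ y : T, x = f + p • y

namespace PadicAux

theorem exists_basis_extending {K V : Type*} [Field K] [AddCommGroup V] [Module K V] [Finite V]
    {s : ℕ} (w : Fin s → V) (hli : LinearIndependent K w) :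
    ∃ (r : ℕ) (emb : Fin s → Fin r) (b : Module.Basis (Fin r) K V), Function.Injective emb ∧
      ∀ j, b (emb j) = w j := by
  classical
  let B : Set V := hli.linearIndepOn_id.extend (Set.subset_univ _)
  let b0 : Module.Basis B K V := Module.Basis.extend hli.linearIndepOn_id
  let eqv : B ≃ Fin (Nat.card B) := Finite.equivFin B
  refine ⟨Nat.card B, fun j => eqv ⟨w j, Module.Basis.subset_extend hli.linearIndepOn_id ⟨j, rfl⟩⟩,
    b0.reindex eqv, ?_, ?_⟩
  · intro j j' h
    have h1 := eqv.injective h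
    exact hli.injective (congrArg Subtype.val h1)
  · intro j
    simp only [Module.Basis.reindex_apply, Equiv.symm_apply_apply, b0]
    exact Module.Basis.extend_apply_self hli.linearIndepOn_id _

theorem exists_basis_mod_aux {p : ℕ} [Fact p.Prime] {T Q : Type} [AddCommGroup T] [AddCommGroup Q]
    [Module (ZMod p) Q] [Finite Q] (mk : T →+ Q) (hmksurj : Function.Surjective mk)
    (hmk0 : ∀ x : T, mk x = 0 ↔ ∃ y, x = p • y)
    {s : ℕ} (v : Fin s → T)
    (hv : ∀ a : Fin s → ℤ, (∃ y : T, ∑ j, a j • v j = p • y) → ∀ j, (p : ℤ) ∣ a j) :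
    ∃ (r : ℕ) (emb : Fin s → Fin r) (e : Fin r → T), Function.Injective emb ∧
      (∀ j, e (emb j) = v j) ∧
      (∀ x : T, ∃ (a : Fin r → ℤ) (y : T), x = ∑ i, a i • e i + p • y) ∧
      (∀ (a : Fin r → ℤ) (y : T), ∑ i, a i • e i = p • y → ∀ i, (p : ℤ) ∣ a i) := by
  classical
  have hcast : ∀ (z : ℤ) (q : Q), (z : ZMod p) • q = z • q := fun z q => Int.cast_smul_eq_zsmul _ z q
  have hli : LinearIndependent (ZMod p) (fun j => mk (v j)) := by
    rw [Fintype.linearIndependent_iff]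
    intro g hg j
    have h1 : mk (∑ j, ((g j).val : ℤ) • v j) = 0 := by
      rw [map_sum, ← hg]
      refine Finset.sum_congr rfl fun j _ => ?_
      rw [map_zsmul, ← hcast]
      simp
    have h2 := hv _ ((hmk0 _).mp h1) j
    have h3 : (((g j).val : ℤ) : ZMod p) = 0 := (ZMod.intCast_zmod_eq_zero_iff_dvd _ p).mpr h2
    simpa using h3
  obtain ⟨r, emb, b, hemb, hbemb⟩ := exists_basis_extending _ hli
  let e : Fin r → T := fun i =>
    if h : ∃ j, emb j = i then v h.choose else (hmksurj (b i)).choose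
  have he : ∀ i, mk (e i) = b i := by
    intro i
    by_cases h : ∃ j, emb j = i
    · simp only [e, dif_pos h]
      rw [← hbemb, h.choose_spec]
    · simp only [e, dif_neg h]
      exact (hmksurj (b i)).choose_spec
  have heemb : ∀ j, e (emb j) = v j := by
    intro j
    have h : ∃ j', emb j' = emb j := ⟨j, rfl⟩
    simp only [e, dif_pos h]
    rw [hemb h.choose_spec]
  refine ⟨_, emb, e, hemb, heemb, ?_, ?_⟩
  · intro x
    let a : Fin r → ℤ := fun i => ((b.repr (mk x) i).val : ℤ)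
    have h1 : mk (x - ∑ i, a i • e i) = 0 := by
      rw [map_sub, map_sum, sub_eq_zero]
      conv_lhs => rw [← b.sum_repr (mk x)]
      refine Finset.sum_congr rfl fun i _ => ?_
      rw [map_zsmul, he, ← hcast]
      simp [a]
    obtain ⟨y, hy⟩ := (hmk0 _).mp h1
    exact ⟨a, y, by rw [← hy]; abel⟩
  · intro a y h i
    have h1 : ∑ i, (a i : ZMod p) • b i = 0 := by
      have h2 : mk (∑ i, a i • e i) = 0 := (hmk0 _).mpr ⟨y, h⟩
      rw [map_sum] at h2
      rw [← h2]
      refine Finset.sum_congr rfl fun i _ => ?_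
      rw [map_zsmul, he, hcast]
    have h3 := (Fintype.linearIndependent_iff.mp b.linearIndependent) _ h1 i
    exact (ZMod.intCast_zmod_eq_zero_iff_dvd _ p).mp h3

/-- Step 0: a "basis mod `p`" extending `v`. -/
theorem exists_basis_mod {p : ℕ} (hp : p.Prime) {T : Type} [AddCommGroup T] (hT : IsTate p T)
    {s : ℕ} (v : Fin s → T)
    (hv : ∀ a : Fin s → ℤ, (∃ y : T, ∑ j, a j • v j = p • y) → ∀ j, (p : ℤ) ∣ a j) :
    ∃ (r : ℕ) (emb : Fin s → Fin r) (e : Fin r → T), Function.Injective emb ∧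
      (∀ j, e (emb j) = v j) ∧
      (∀ x : T, ∃ (a : Fin r → ℤ) (y : T), x = ∑ i, a i • e i + p • y) ∧
      (∀ (a : Fin r → ℤ) (y : T), ∑ i, a i • e i = p • y → ∀ i, (p : ℤ) ∣ a i) := by
  classical
  haveI : Fact p.Prime := ⟨hp⟩
  let pT : AddSubgroup T := (nsmulAddMonoidHom (α := T) p).range
  have hmem : ∀ x : T, x ∈ pT ↔ ∃ y, x = p • y := by
    intro x
    constructor
    · rintro ⟨y, rfl⟩; exact ⟨y, rfl⟩
    · rintro ⟨y, rfl⟩; exact ⟨y, rfl⟩
  have hmk0 : ∀ x : T, QuotientAddGroup.mk' pT x = 0 ↔ ∃ y, x = p • y := by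
    intro x
    rw [← hmem]
    exact QuotientAddGroup.eq_zero_iff x
  have hmksurj : Function.Surjective (QuotientAddGroup.mk' pT) := QuotientAddGroup.mk'_surjective pT
  letI : Module (ZMod p) (T ⧸ pT) := AddCommGroup.zmodModule (by
    intro q
    obtain ⟨x, rfl⟩ := hmksurj q
    rw [← map_nsmul, hmk0]
    exact ⟨x, rfl⟩)
  haveI : Finite (T ⧸ pT) := by
    obtain ⟨F, hF⟩ := hT.fin
    apply Finite.of_surjective (fun f : F => QuotientAddGroup.mk' pT f)
    intro q
    obtain ⟨x, rfl⟩ := hmksurj q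
    obtain ⟨f, hf, y, rfl⟩ := hF x
    refine ⟨⟨f, hf⟩, ?_⟩
    show QuotientAddGroup.mk' pT f = QuotientAddGroup.mk' pT (f + p • y)
    rw [map_add, (hmk0 (p • y)).mpr ⟨y, rfl⟩, add_zero]
  exact exists_basis_mod_aux (QuotientAddGroup.mk' pT) hmksurj hmk0 v hv



section
variable {p : ℕ} {T : Type} [AddCommGroup T] {r : ℕ} (e : Fin r → T)

theorem gen_pow (G1 : ∀ x : T, ∃ (a : Fin r → ℤ) (y : T), x = ∑ i, a i • e i + p • y) (n : ℕ) (x : T) :
    ∃ (a : Fin r → ℤ) (y : T), x = ∑ i, a i • e i + p ^ n • y := by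
  induction n with
  | zero => exact ⟨0, x, by simp⟩
  | succ n ih =>
    obtain ⟨a, y, h⟩ := ih
    obtain ⟨a', y', h'⟩ := G1 y
    refine ⟨fun i => a i + (p : ℤ) ^ n * a' i, y', ?_⟩
    have h1 : ∑ i, (a i + (p : ℤ) ^ n * a' i) • e i
        = ∑ i, a i • e i + p ^ n • ∑ i, a' i • e i := by
      rw [Finset.smul_sum, ← Finset.sum_add_distrib]
      refine Finset.sum_congr rfl fun i _ => ?_
      rw [add_smul, mul_smul, ← Nat.cast_pow, natCast_zsmul]
    rw [h1, h, h', smul_add, pow_succ, mul_smul, add_assoc]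

theorem uniq_pow (tf : ∀ x : T, p • x = 0 → x = 0)
    (U1 : ∀ (a : Fin r → ℤ) (y : T), ∑ i, a i • e i = p • y → ∀ i, (p : ℤ) ∣ a i) (n : ℕ) :
    ∀ (a : Fin r → ℤ) (y : T), ∑ i, a i • e i = p ^ n • y → ∀ i, ((p : ℤ) ^ n) ∣ a i := by
  induction n with
  | zero => intro a y _ i; simp
  | succ n ih =>
    intro a y h i
    have h1 : ∑ i, a i • e i = p • (p ^ n • y) := by
      rw [h, pow_succ, mul_comm, mul_smul]
    have h2 := U1 a _ h1
    choose b hb using h2
    have h3 : ∑ i, b i • e i = p ^ n • y := by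
      rw [← sub_eq_zero]
      apply tf
      rw [smul_sub, ← h1, sub_eq_zero, Finset.smul_sum]
      refine Finset.sum_congr rfl fun i _ => ?_
      rw [hb i, mul_smul, natCast_zsmul]
    obtain ⟨c, hc⟩ := ih b y h3 i
    exact ⟨c, by rw [hb i, hc, pow_succ]; ring⟩

end

section
variable {𝒪 : Type} [CommRing 𝒪] (I : Ideal 𝒪)

theorem cast_mem_pow {p : ℕ} (hpI : (p : 𝒪) ∈ I) {n : ℕ} {z : ℤ} (h : ((p : ℤ) ^ n) ∣ z) :
    (z : 𝒪) ∈ I ^ n := by
  obtain ⟨w, rfl⟩ := h
  push_cast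
  exact Ideal.mul_mem_right _ _ (Ideal.pow_mem_pow hpI n)

theorem eq_zero_of_forall_mem_pow [IsAdicComplete I 𝒪] {z : 𝒪} (h : ∀ n, z ∈ I ^ n) : z = 0 := by
  apply IsHausdorff.haus (I := I) inferInstance
  intro n
  rw [SModEq.zero, smul_eq_mul, Ideal.mul_top]
  exact h n

theorem exists_limit [IsAdicComplete I 𝒪] (f : ℕ → 𝒪)
    (h : ∀ m n, m ≤ n → f m - f n ∈ I ^ m) : ∃ L : 𝒪, ∀ n, L - f n ∈ I ^ n := by
  obtain ⟨L, hL⟩ := IsPrecomplete.prec (I := I) (M := 𝒪) inferInstance (f := f) (by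
    intro m n hmn
    rw [SModEq.sub_mem, smul_eq_mul, Ideal.mul_top]
    exact h m n hmn)
  refine ⟨L, fun n => ?_⟩
  have := hL n
  rw [SModEq.sub_mem, smul_eq_mul, Ideal.mul_top] at this
  rw [← neg_sub]
  exact neg_mem this

end


/-- Steps 2: the coordinates. -/
theorem exists_lam {p : ℕ} {T : Type} [AddCommGroup T] {r : ℕ} (e : Fin r → T)
    (Gn : ∀ (n : ℕ) (x : T), ∃ (a : Fin r → ℤ) (y : T), x = ∑ i, a i • e i + p ^ n • y)
    (Un : ∀ (n : ℕ) (a : Fin r → ℤ) (y : T), ∑ i, a i • e i = p ^ n • y → ∀ i, ((p : ℤ) ^ n) ∣ a i)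
    {𝒪 : Type} [CommRing 𝒪] (I : Ideal 𝒪) [IsAdicComplete I 𝒪] (hpI : (p : 𝒪) ∈ I) :
    ∃ lam : T →+ (Fin r → 𝒪), ∀ (n : ℕ) (x : T) (a : Fin r → ℤ) (y : T),
      x = ∑ i, a i • e i + p ^ n • y → ∀ i, lam x i - (a i : 𝒪) ∈ I ^ n := by
  classical
  -- two expansions agree mod `p ^ m`
  have hcmp : ∀ (m n : ℕ) (x : T) (a a' : Fin r → ℤ) (y y' : T), m ≤ n →
      x = ∑ i, a i • e i + p ^ m • y → x = ∑ i, a' i • e i + p ^ n • y' →
      ∀ i, ((a i : 𝒪) - (a' i : 𝒪)) ∈ I ^ m := by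
    intro m n x a a' y y' hmn h h' i
    have h1 : ∑ i, (a i - a' i) • e i = p ^ m • (p ^ (n - m) • y' - y) := by
      have h2 : ∑ i, (a i - a' i) • e i = ∑ i, a i • e i - ∑ i, a' i • e i := by
        rw [← Finset.sum_sub_distrib]
        exact Finset.sum_congr rfl fun i _ => sub_smul _ _ _
      have h3 : p ^ m • (p ^ (n - m) • y') = p ^ n • y' := by
        rw [← mul_smul, ← pow_add, Nat.add_sub_cancel' hmn]
      rw [h2, smul_sub, h3]
      have h4 := h.symm.trans h'
      rw [sub_eq_sub_iff_add_eq_add, h4, add_comm]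
    have h5 := cast_mem_pow I hpI (Un m _ _ h1 i)
    simpa using h5
  choose c yc hc using Gn
  have hlim : ∀ (x : T) (i : Fin r), ∃ L : 𝒪, ∀ n, L - (c n x i : 𝒪) ∈ I ^ n := by
    intro x i
    apply exists_limit I (fun n => (c n x i : 𝒪))
    intro m n hmn
    exact hcmp m n x _ _ _ _ hmn (hc m x) (hc n x) i
  choose lam hlam using hlim
  have hL : ∀ (n : ℕ) (x : T) (a : Fin r → ℤ) (y : T),
      x = ∑ i, a i • e i + p ^ n • y → ∀ i, lam x i - (a i : 𝒪) ∈ I ^ n := by
    intro n x a y h i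
    have h1 := hcmp n n x _ _ _ _ le_rfl (hc n x) h i
    have h2 := add_mem (hlam x i n) h1
    simpa using h2
  refine ⟨AddMonoidHom.mk' lam ?_, hL⟩
  intro x x'
  funext i
  rw [Pi.add_apply, ← sub_eq_zero]
  apply eq_zero_of_forall_mem_pow I
  intro n
  have h1 : x + x' = ∑ i, (c n x i + c n x' i) • e i + p ^ n • (yc n x + yc n x') := by
    have h2 : ∑ i, (c n x i + c n x' i) • e i = ∑ i, c n x i • e i + ∑ i, c n x' i • e i := by
      rw [← Finset.sum_add_distrib]
      exact Finset.sum_congr rfl fun i _ => add_smul _ _ _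
    rw [h2, smul_add]
    conv_lhs => rw [hc n x, hc n x']
    abel
  have h3 := hL n _ _ _ h1 i
  have h4 := sub_mem h3 (add_mem (hlam x i n) (hlam x' i n))
  convert h4 using 1
  push_cast
  ring


end PadicAux

open Fermat.Agent.S30.PadicAux in
theorem exists_hat {p : ℕ} (hp : p.Prime) {T : Type} [AddCommGroup T] (hT : IsTate p T)
    {s : ℕ} (v : Fin s → T)
    (hv : ∀ a : Fin s → ℤ, (∃ y : T, ∑ j, a j • v j = p • y) → ∀ j, (p : ℤ) ∣ a j)
    {𝒪 : Type} [CommRing 𝒪] (I : Ideal 𝒪) [IsAdicComplete I 𝒪] (hpI : (p : 𝒪) ∈ I) :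
    ∃ (r : ℕ) (emb : Fin s → Fin r) (lam : T →+ (Fin r → 𝒪))
      (hat : AddMonoid.End T →+* Matrix (Fin r) (Fin r) 𝒪),
      Function.Injective emb ∧
      (∀ j, lam (v j) = Pi.single (emb j) 1) ∧
      (∀ i, ∃ x : T, lam x = Pi.single i 1) ∧
      (∀ (Φ : AddMonoid.End T) (x : T), (hat Φ).mulVec (lam x) = lam (Φ x)) := by
  classical
  obtain ⟨r, emb, e, hemb, heemb, G1, U1⟩ := exists_basis_mod hp hT v hv
  have Gn := gen_pow e G1
  have Un := uniq_pow e hT.tf U1
  obtain ⟨lam, hL⟩ := exists_lam e Gn Un I hpI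
  -- `lam (e i)` is the standard basis vector
  have hlame : ∀ i, lam (e i) = Pi.single i 1 := by
    intro i
    funext j
    rw [← sub_eq_zero]
    apply eq_zero_of_forall_mem_pow I
    intro n
    have h1 : e i = ∑ j, (Pi.single i 1 : Fin r → ℤ) j • e j + p ^ n • (0 : T) := by
      rw [smul_zero, add_zero, Finset.sum_eq_single i]
      · simp
      · intro j _ hj
        rw [Pi.single_eq_of_ne hj, zero_smul]
      · simp
    have h2 := hL n _ _ _ h1 j
    convert h2 using 2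
    by_cases hij : j = i
    · subst hij; simp
    · simp [Pi.single_eq_of_ne hij]
  let hat0 : AddMonoid.End T → Matrix (Fin r) (Fin r) 𝒪 := fun Φ =>
    Matrix.of fun i j => lam (Φ (e j)) i
  have hcol : ∀ (Φ : AddMonoid.End T) (j : Fin r), (hat0 Φ).mulVec (Pi.single j 1) = lam (Φ (e j)) := by
    intro Φ j
    rw [Matrix.mulVec_single_one]
    rfl
  have hmain : ∀ (Φ : AddMonoid.End T) (x : T), (hat0 Φ).mulVec (lam x) = lam (Φ x) := by
    intro Φ x
    funext i
    rw [← sub_eq_zero]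
    apply eq_zero_of_forall_mem_pow I
    intro n
    obtain ⟨a, y, h⟩ := Gn n x
    have h1 : lam x = ∑ j, a j • (Pi.single j 1 : Fin r → 𝒪) + p ^ n • lam y := by
      rw [h, map_add, map_sum, map_nsmul]
      congr 1
      refine Finset.sum_congr rfl fun j _ => ?_
      rw [map_zsmul, hlame]
    have h2 : lam (Φ x) = ∑ j, a j • lam (Φ (e j)) + p ^ n • lam (Φ y) := by
      rw [h, map_add, map_add, map_sum, map_sum, map_nsmul, map_nsmul]
      congr 1
      refine Finset.sum_congr rfl fun j _ => ?_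
      rw [map_zsmul, map_zsmul]
    have h3 : (hat0 Φ).mulVec (lam x)
        = ∑ j, a j • lam (Φ (e j)) + p ^ n • (hat0 Φ).mulVec (lam y) := by
      rw [h1, ← Matrix.mulVecLin_apply, map_add, map_sum, map_nsmul]
      congr 1
      refine Finset.sum_congr rfl fun j _ => ?_
      rw [map_zsmul, Matrix.mulVecLin_apply, hcol]
    rw [h3, h2]
    have h4 : (∑ j, a j • lam (Φ (e j)) + p ^ n • (hat0 Φ).mulVec (lam y)) i
        - (∑ j, a j • lam (Φ (e j)) + p ^ n • lam (Φ y)) i
        = (p : 𝒪) ^ n * ((hat0 Φ).mulVec (lam y) i - lam (Φ y) i) := by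
      rw [Pi.add_apply, Pi.add_apply, add_sub_add_left_eq_sub, Pi.smul_apply, Pi.smul_apply,
        nsmul_eq_mul, nsmul_eq_mul, ← mul_sub]
      push_cast
      rfl
    rw [h4]
    exact Ideal.mul_mem_right _ _ (Ideal.pow_mem_pow hpI n)
  let hat : AddMonoid.End T →+* Matrix (Fin r) (Fin r) 𝒪 :=
    { toFun := hat0
      map_one' := by
        ext i j
        show lam (e j) i = _
        rw [hlame, Matrix.one_apply, Pi.single_apply]
      map_mul' := by
        intro Φ Ψ
        ext i j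
        have h1 : (hat0 Φ * hat0 Ψ) i j = ((hat0 Φ).mulVec (lam (Ψ (e j)))) i := rfl
        rw [h1, hmain]
        rfl
      map_zero' := by
        ext i j
        show lam ((0 : AddMonoid.End T) (e j)) i = 0
        simp
      map_add' := by
        intro Φ Ψ
        ext i j
        show lam ((Φ + Ψ) (e j)) i = lam (Φ (e j)) i + lam (Ψ (e j)) i
        have h1 : (Φ + Ψ) (e j) = Φ (e j) + Ψ (e j) := rfl
        rw [h1, map_add, Pi.add_apply] }
  refine ⟨r, emb, lam, hat, hemb, ?_, ?_, hmain⟩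
  · intro j
    rw [← heemb, hlame]
  · intro i
    exact ⟨e i, hlame i⟩

end Fermat.Agent.S30
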