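/-
S30/KumTower: the `p`-adic Tate module `T = lim_n Kum N (p ^ n)` with its Galois and Hecke actions.
No surjectivity of the transition maps is needed.
-/
import Fermat.Agent.ES.B.ToD
import Fermat.Agent.S30.Padic

set_option autoImplicit false

open AlgebraicCurve ModularCurve

namespace Fermat.Agent.S30

open Fermat.Agent.ES

noncomputable section

variable {N : ℕ}

/-! ### transition maps -/

theorem Dm_le_of_dvd {m m' : ℕ} (h : m ∣ m') : Dm N m' ≤ Dm N m :=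
  fun _ hf P => (Int.natCast_dvd_natCast.mpr h).trans (hf P)

theorem Pw_le_of_dvd {m m' : ℕ} (h : m ∣ m') : Pw N m' ≤ Pw N m := by
  rintro _ ⟨g, rfl⟩
  obtain ⟨k, rfl⟩ := h
  exact ⟨g ^ k, by simp only [powMonoidHom_apply, ← pow_mul, mul_comm]⟩

/-- the inclusion `Dm N m' ≤ Dm N m`. -/
def incl {m m' : ℕ} (h : m ∣ m') : Dm N m' →* Dm N m :=
  (Dm N m').subtype.codRestrict (Dm N m) (fun f => Dm_le_of_dvd h f.2)

theorem coe_incl {m m' : ℕ} (h : m ∣ m') (f : Dm N m') :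
    ((incl h f : Dm N m) : (FF N)ˣ) = (f : (FF N)ˣ) := rfl

theorem incl_le {m m' : ℕ} (h : m ∣ m') :
    (Pw N m').subgroupOf (Dm N m') ≤ ((Pw N m).subgroupOf (Dm N m)).comap (incl h) := by
  rintro ⟨f, hf⟩ hfP
  rw [Subgroup.mem_subgroupOf] at hfP
  rw [Subgroup.mem_comap, Subgroup.mem_subgroupOf]
  exact Pw_le_of_dvd h hfP

/-- the transition map `Kum N m' → Kum N m`, `mk f ↦ mk f`, for `m ∣ m'`. -/
def trans {m m' : ℕ} (h : m ∣ m') : Kum N m' →+ Kum N m :=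
  MonoidHom.toAdditive (QuotientGroup.map _ _ (incl h) (incl_le h))

theorem trans_mk {m m' : ℕ} (h : m ∣ m') (f : Dm N m') :
    trans h (Kum.mk f) = Kum.mk (incl h f) := rfl

theorem trans_trans {m m' m'' : ℕ} (h : m ∣ m') (h' : m' ∣ m'') (x : Kum N m'') :
    trans h (trans h' x) = trans (h.trans h') x := by
  obtain ⟨f, rfl⟩ := Kum.mk_surjective x
  rfl

theorem trans_self {m : ℕ} (h : m ∣ m) (x : Kum N m) : trans h x = x := by
  obtain ⟨f, rfl⟩ := Kum.mk_surjective x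
  rfl

theorem trans_map {m m' : ℕ} (h : m ∣ m') (φ : (FF N)ˣ →* (FF N)ˣ)
    (hD : ∀ f ∈ Dm N m, φ f ∈ Dm N m) (hD' : ∀ f ∈ Dm N m', φ f ∈ Dm N m') (x : Kum N m') :
    trans h (Kum.map φ hD' x) = Kum.map φ hD (trans h x) := by
  obtain ⟨f, rfl⟩ := Kum.mk_surjective x
  rfl

/-! ### the maps `mk h ↦ mk (h ^ k)` -/

theorem pow_mem_Dm {m m' k : ℕ} (h : m' = m * k) {f : (FF N)ˣ} (hf : f ∈ Dm N m) :
    f ^ k ∈ Dm N m' := by
  intro P
  have h1 : ((f ^ k : (FF N)ˣ) : FF N) = (f : FF N) ^ (k : ℤ) := by simp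
  rw [h1, P.ord_zpow, h]
  push_cast
  rw [mul_comm (m : ℤ)]
  exact mul_dvd_mul_left _ (hf P)

/-- `f ↦ f ^ k` as a map `Dm N m → Dm N (m * k)`. -/
def powD {m m' : ℕ} (k : ℕ) (h : m' = m * k) : Dm N m →* Dm N m' :=
  ((powMonoidHom k : (FF N)ˣ →* (FF N)ˣ).comp (Dm N m).subtype).codRestrict (Dm N m')
      (fun f => pow_mem_Dm h f.2)

theorem coe_powD {m m' : ℕ} (k : ℕ) (h : m' = m * k) (f : Dm N m) :
    ((powD k h f : Dm N m') : (FF N)ˣ) = (f : (FF N)ˣ) ^ k := rfl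

theorem powD_le {m m' : ℕ} (k : ℕ) (h : m' = m * k) :
    (Pw N m).subgroupOf (Dm N m) ≤ ((Pw N m').subgroupOf (Dm N m')).comap (powD k h) := by
  rintro ⟨f, hf⟩ hfP
  rw [Subgroup.mem_subgroupOf] at hfP
  obtain ⟨g, hg⟩ := hfP
  rw [Subgroup.mem_comap, Subgroup.mem_subgroupOf]
  refine ⟨g, ?_⟩
  have hg' : g ^ m = f := hg
  show g ^ m' = f ^ k
  rw [h, pow_mul, hg']

/-- `Kum N m → Kum N (m * k)`, `mk h ↦ mk (h ^ k)`. -/
def powMap {m m' : ℕ} (k : ℕ) (h : m' = m * k) : Kum N m →+ Kum N m' :=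
  MonoidHom.toAdditive (QuotientGroup.map _ _ (powD k h) (powD_le k h))

theorem powMap_mk {m m' : ℕ} (k : ℕ) (h : m' = m * k) (f : Dm N m) :
    powMap k h (Kum.mk f) = Kum.mk (powD k h f) := rfl

theorem trans_powMap {m m' : ℕ} (k : ℕ) (h : m' = m * k) (hd : m ∣ m') (x : Kum N m) :
    trans hd (powMap k h x) = k • x := by
  obtain ⟨f, rfl⟩ := Kum.mk_surjective x
  rfl

theorem powMap_trans {m m' : ℕ} (k : ℕ) (h : m' = m * k) (hd : m ∣ m') (x : Kum N m') :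
    powMap k h (trans hd x) = k • x := by
  obtain ⟨f, rfl⟩ := Kum.mk_surjective x
  rfl

theorem trans_powMap_comm {m₁ m₁' m₂ m₂' : ℕ} (k : ℕ) (h₁ : m₁' = m₁ * k) (h₂ : m₂' = m₂ * k)
    (hd : m₁ ∣ m₂) (hd' : m₁' ∣ m₂') (x : Kum N m₂) :
    trans hd' (powMap k h₂ x) = powMap k h₁ (trans hd x) := by
  obtain ⟨f, rfl⟩ := Kum.mk_surjective x
  rfl

/-- roots of unity of the function field are constants, hence `m`-th powers. -/
theorem exists_pow_eq_of_pow_eq_one {k m : ℕ} (hk : k ≠ 0) (hm : m ≠ 0) (z : (FF N)ˣ)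
    (hz : z ^ k = 1) : ∃ ξ : (FF N)ˣ, ξ ^ m = z := by
  have : NeZero k := ⟨hk⟩
  obtain ⟨ζ, hζ⟩ := exists_primitiveRoot_Qb k
  have hζ' : IsPrimitiveRoot (algebraMap Qb (FF N) ζ) k :=
    hζ.map_of_injective (algebraMap Qb (FF N)).injective
  have hz' : (z : FF N) ^ k = 1 := by
    rw [← Units.val_pow_eq_pow_val, hz, Units.val_one]
  obtain ⟨i, -, hi⟩ := hζ'.eq_pow_of_pow_eq_one hz'
  obtain ⟨η, hη⟩ := IsAlgClosed.exists_pow_nat_eq (ζ ^ i) (Nat.pos_of_ne_zero hm)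
  have hη0 : algebraMap Qb (FF N) η ≠ 0 := by
    rw [Ne, map_eq_zero]
    rintro rfl
    rw [zero_pow hm] at hη
    exact pow_ne_zero i (hζ.ne_zero hk) hη.symm
  refine ⟨Units.mk0 _ hη0, Units.ext ?_⟩
  rw [Units.val_pow_eq_pow_val, Units.val_mk0, ← map_pow, hη, map_pow, hi]

theorem powMap_injective {m m' : ℕ} (k : ℕ) (h : m' = m * k) (hk : k ≠ 0) (hm : m ≠ 0) :
    Function.Injective (powMap (N := N) k h) := by
  rw [injective_iff_map_eq_zero]
  intro x hx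
  obtain ⟨f, rfl⟩ := Kum.mk_surjective x
  rw [powMap_mk, Kum.mk_eq_zero_iff] at hx
  obtain ⟨g, hg⟩ := hx
  rw [coe_powD] at hg
  obtain ⟨ξ, hξ⟩ := exists_pow_eq_of_pow_eq_one hk hm ((f : (FF N)ˣ) * (g ^ m)⁻¹) (by
    rw [mul_pow, inv_pow, ← pow_mul, ← h, hg, mul_inv_cancel])
  rw [Kum.mk_eq_zero_iff]
  exact ⟨ξ * g, by rw [mul_pow, hξ, inv_mul_cancel_right]⟩

theorem exists_powMap_eq {m m' k k' : ℕ} (h : m' = m * k) (hk : k ≠ 0) (hk' : k' = k)
    (hd : k' ∣ m') (y : Kum N m') (hy : trans hd y = 0) : ∃ z : Kum N m, powMap k h z = y := by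
  subst hk'
  obtain ⟨f, rfl⟩ := Kum.mk_surjective y
  rw [trans_mk, Kum.mk_eq_zero_iff] at hy
  obtain ⟨g, hg⟩ := hy
  rw [coe_incl] at hg
  have hgD : g ∈ Dm N m := by
    intro P
    have h1 := f.2 P
    have h2 : ((f : (FF N)ˣ) : FF N) = (g : FF N) ^ (k' : ℤ) := by
      rw [← hg]; simp
    rw [h2, P.ord_zpow, h] at h1
    push_cast at h1
    rw [mul_comm (m : ℤ)] at h1
    exact (mul_dvd_mul_iff_left (by exact_mod_cast hk)).mp h1
  exact ⟨Kum.mk ⟨g, hgD⟩, by rw [powMap_mk]; exact congrArg Kum.mk (Subtype.ext hg)⟩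

/-! ### the Tate module -/

variable (N) (p : ℕ)

/-- `T = lim_n Kum N (p ^ n)`. -/
def Tate : AddSubgroup (∀ n : ℕ, Kum N (p ^ n)) where
  carrier := {x | ∀ n, trans (pow_dvd_pow p (Nat.le_succ n)) (x (n + 1)) = x n}
  zero_mem' := fun n => map_zero _
  add_mem' := fun {x y} hx hy n => by
    rw [Pi.add_apply, Pi.add_apply, map_add, hx n, hy n]
  neg_mem' := fun {x} hx n => by
    rw [Pi.neg_apply, Pi.neg_apply, map_neg, hx n]

variable {N p}

namespace Tate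

theorem trans_succ (x : Tate N p) (n : ℕ) :
    trans (pow_dvd_pow p (Nat.le_succ n)) (x.1 (n + 1)) = x.1 n := x.2 n

theorem trans_apply (x : Tate N p) {m n : ℕ} (h : m ≤ n) :
    trans (pow_dvd_pow p h) (x.1 n) = x.1 m := by
  induction n, h using Nat.le_induction with
  | base => exact trans_self _ _
  | succ n hmn ih =>
    rw [← ih, ← trans_succ x n, trans_trans]

theorem ext {x y : Tate N p} (h : ∀ n, x.1 n = y.1 n) : x = y := Subtype.ext (funext h)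

theorem nsmul_apply (k : ℕ) (x : Tate N p) (n : ℕ) : (k • x).1 n = k • x.1 n := rfl

theorem add_apply (x y : Tate N p) (n : ℕ) : (x + y).1 n = x.1 n + y.1 n := rfl

theorem sub_apply (x y : Tate N p) (n : ℕ) : (x - y).1 n = x.1 n - y.1 n := rfl

theorem zero_apply (n : ℕ) : (0 : Tate N p).1 n = 0 := rfl

/-- the map `Kum N (p ^ n) → Kum N (p ^ (n + 1))`, `mk h ↦ mk (h ^ p)`. -/
abbrev jm (N p n : ℕ) : Kum N (p ^ n) →+ Kum N (p ^ (n + 1)) := powMap p (pow_succ p n)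

theorem jm_injective (hp : p ≠ 0) (n : ℕ) : Function.Injective (jm N p n) :=
  powMap_injective p _ hp (pow_ne_zero n hp)

theorem jm_apply (x : Tate N p) (n : ℕ) : jm N p n (x.1 n) = p • x.1 (n + 1) := by
  rw [← trans_succ x n, powMap_trans]

theorem tf (hp : p ≠ 0) (x : Tate N p) (hx : p • x = 0) : x = 0 := by
  refine ext fun n => jm_injective hp n ?_
  rw [jm_apply, ← nsmul_apply, hx, zero_apply, zero_apply, map_zero]

/-- an element dying at level one is divisible by `p`. -/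
theorem exists_eq_smul_of_one (hp : p ≠ 0) (x : Tate N p) (hx : x.1 1 = 0) :
    ∃ y : Tate N p, x = p • y := by
  have h1 : ∀ n, ∃ z : Kum N (p ^ n), jm N p n z = x.1 (n + 1) := fun n =>
    exists_powMap_eq (pow_succ p n) hp (pow_one p) (pow_dvd_pow p (Nat.succ_le_succ (Nat.zero_le n)))
      (x.1 (n + 1)) (by rw [trans_apply x (Nat.succ_le_succ (Nat.zero_le n)), hx])
  choose y hy using h1
  have hy' : ∀ n, trans (pow_dvd_pow p (Nat.le_succ n)) (y (n + 1)) = y n := by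
    intro n
    apply jm_injective hp n
    rw [hy, ← trans_succ x (n + 1), ← hy (n + 1)]
    exact (trans_powMap_comm p _ _ _ _ _).symm
  refine ⟨⟨y, hy'⟩, ext fun n => ?_⟩
  rw [nsmul_apply, ← trans_succ x n, ← hy n, trans_powMap]

/-- an element dying at level `n` is divisible by `p ^ n`. -/
theorem exists_eq_smul (hp : p ≠ 0) (n : ℕ) (x : Tate N p) (hx : x.1 n = 0) :
    ∃ y : Tate N p, x = p ^ n • y := by
  induction n generalizing x with
  | zero => exact ⟨x, by rw [pow_zero, one_smul]⟩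
  | succ n ih =>
    have h1 : x.1 1 = 0 := by
      rw [← trans_apply x (Nat.succ_le_succ (Nat.zero_le n)), hx, map_zero]
    obtain ⟨y, rfl⟩ := exists_eq_smul_of_one hp x h1
    have h2 : y.1 n = 0 := by
      apply jm_injective hp n
      rw [jm_apply, ← nsmul_apply, hx, map_zero]
    obtain ⟨z, rfl⟩ := ih y h2
    exact ⟨z, by rw [pow_succ', mul_smul]⟩

theorem isTate (hp : p ≠ 0) (hfin : Finite (Kum N (p ^ 1))) : IsTate p (Tate N p) where
  tf := tf hp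
  fin := by
    classical
    have := Fintype.ofFinite (Kum N (p ^ 1))
    let g : Kum N (p ^ 1) → Tate N p := fun a =>
      if h : ∃ x : Tate N p, x.1 1 = a then h.choose else 0
    refine ⟨Finset.univ.image g, fun x => ⟨g (x.1 1), Finset.mem_image_of_mem _ (Finset.mem_univ _), ?_⟩⟩
    have hex : ∃ x' : Tate N p, x'.1 1 = x.1 1 := ⟨x, rfl⟩
    have hg : (g (x.1 1)).1 1 = x.1 1 := by
      have : g (x.1 1) = hex.choose := dif_pos hex
      rw [this]
      exact hex.choose_spec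
    obtain ⟨y, hy⟩ := exists_eq_smul_of_one hp (x - g (x.1 1)) (by rw [sub_apply, hg, sub_self])
    exact ⟨y, by rw [← hy, add_sub_cancel]⟩

/-! ### endomorphisms of the tower -/

/-- a compatible family of endomorphisms induces an endomorphism of the Tate module. -/
def mapEnd (Φ : ∀ n : ℕ, Kum N (p ^ n) →+ Kum N (p ^ n))
    (hΦ : ∀ n x, trans (pow_dvd_pow p (Nat.le_succ n)) (Φ (n + 1) x)
      = Φ n (trans (pow_dvd_pow p (Nat.le_succ n)) x)) : AddMonoid.End (Tate N p) :=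
  AddMonoidHom.mk' (fun x => ⟨fun n => Φ n (x.1 n), fun n => by
      show trans _ (Φ (n + 1) (x.1 (n + 1))) = Φ n (x.1 n)
      rw [hΦ, trans_succ]⟩)
    (fun x y => ext fun n => map_add (Φ n) _ _)

theorem mapEnd_apply (Φ : ∀ n : ℕ, Kum N (p ^ n) →+ Kum N (p ^ n))
    (hΦ : ∀ n x, trans (pow_dvd_pow p (Nat.le_succ n)) (Φ (n + 1) x)
      = Φ n (trans (pow_dvd_pow p (Nat.le_succ n)) x)) (x : Tate N p) (n : ℕ) :
    (mapEnd Φ hΦ x).1 n = Φ n (x.1 n) := rfl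

variable (N p)

/-- the Galois action on the Tate module. -/
def gal : GQ →* AddMonoid.End (Tate N p) where
  toFun σ := mapEnd (fun n => galKum N (p ^ n) σ) (fun _ x => trans_map _ _ _ _ x)
  map_one' := AddMonoidHom.ext fun x => ext fun n => galKum_one (x.1 n)
  map_mul' σ τ := AddMonoidHom.ext fun x => ext fun n => galKum_mul σ τ (x.1 n)

/-- the Hecke operators on the Tate module. -/
def hecke [NeZero N] (ℓ : D.GoodPrime N) : AddMonoid.End (Tate N p) :=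
  haveI : NeZero ℓ.1 := ⟨ℓ.2.1.ne_zero⟩
  mapEnd (fun n => heckeKum N ℓ.1 ℓ.2.1 ℓ.2.2 (p ^ n)) (fun _ x => trans_map _ _ _ _ x)

variable {N p}

theorem gal_apply (σ : GQ) (x : Tate N p) (n : ℕ) :
    (gal N p σ x).1 n = galKum N (p ^ n) σ (x.1 n) := rfl

theorem hecke_apply [NeZero N] (ℓ : D.GoodPrime N) (x : Tate N p) (n : ℕ) :
    (hecke N p ℓ x).1 n = heckeT N (p ^ n) ℓ (x.1 n) := rfl

theorem hecke_comm [NeZero N] (ℓ ℓ' : D.GoodPrime N) :
    Commute (hecke N p ℓ) (hecke N p ℓ') :=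
  AddMonoidHom.ext fun x => ext fun n => by
    have : NeZero ℓ.1 := ⟨ℓ.2.1.ne_zero⟩
    have : NeZero ℓ'.1 := ⟨ℓ'.2.1.ne_zero⟩
    exact heckeKum_comm ℓ.1 ℓ'.1 ℓ.2.1 ℓ.2.2 ℓ'.2.1 ℓ'.2.2 (x.1 n)

theorem hecke_gal_comm [NeZero N] (ℓ : D.GoodPrime N) (σ : GQ) :
    Commute (hecke N p ℓ) (gal N p σ) :=
  AddMonoidHom.ext fun x => ext fun n => by
    have : NeZero ℓ.1 := ⟨ℓ.2.1.ne_zero⟩
    exact (galKum_heckeKum N ℓ.1 ℓ.2.1 ℓ.2.2 σ (x.1 n)).symm

/-- continuity. -/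
theorem level [NeZero N] (hp : p ≠ 0) (n : ℕ) (hfin : Finite (Kum N (p ^ n))) :
    ∃ L : IntermediateField ℚ Qb, FiniteDimensional ℚ L ∧
      ∀ σ : GQ, (∀ x ∈ L, σ x = x) → ∀ x : Tate N p, ∃ y : Tate N p, gal N p σ x - x = p ^ n • y := by
  choose L hL h using galKum_smooth N (p ^ n)
  refine ⟨⨆ a, L a, IntermediateField.finiteDimensional_iSup_of_finite, fun σ hσ x => ?_⟩
  apply exists_eq_smul hp n
  rw [sub_apply, gal_apply, h (x.1 n) σ fun y hy => hσ y ((le_iSup L (x.1 n)) hy), sub_self]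

/-- unramifiedness. -/
theorem unram [NeZero N] (hp : p ≠ 0) {q : ℕ} (hcrux : ∀ n, Crux N q (p ^ n))
    (A : ValuationSubring Qb) (hA : A.LiesOverPrime q) (σ : GQ)
    (hσ : σ ∈ A.inertiaSubgroupIn ℚ) : gal N p σ = 1 :=
  AddMonoidHom.ext fun x => ext fun n =>
    galKum_of_mem_inertia (pow_ne_zero n hp) (hcrux n) A hA σ hσ (x.1 n)

/-- the Eichler-Shimura relation. -/
theorem es [NeZero N] (hp : p ≠ 0) (ℓ : D.GoodPrime N) (hcrux : ∀ n, Crux N ℓ.1 (p ^ n))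
    (A : ValuationSubring Qb) (hA : A.LiesOverPrime ℓ.1) (φ : GQ) (hφ : A.IsFrobeniusAt φ ℓ.1) :
    gal N p φ * gal N p φ - hecke N p ℓ * gal N p φ + (ℓ.1 : AddMonoid.End (Tate N p)) = 0 :=
  AddMonoidHom.ext fun x => ext fun n => by
    have : NeZero ℓ.1 := ⟨ℓ.2.1.ne_zero⟩
    exact eichlerShimura_Kum (pow_ne_zero n hp) ℓ.2.1 ℓ.2.2 (hcrux n) A hA φ hφ (x.1 n)

end Tate

end

end Fermat.Agent.S30
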