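/-
S30/Build: the `AdicTower` of level `N` from CRUX (via ES/B, ES/Glue, ES/Coh).
-/
import Fermat.Agent.ES.Glue.Supp
import Fermat.Agent.ES.Coh.RingHom
import Fermat.Agent.S30.KumTower
import Fermat.Agent.S30.AdicTower

set_option autoImplicit false

open CongruenceSubgroup AlgebraicCurve ModularCurve
open scoped MatrixGroups

namespace Fermat.Agent.S30

open Fermat.Agent.ES Fermat.Agent.ES.Glue Fermat.Agent.ES.Coh Fermat.Agent.ES.An

noncomputable section

variable {N : ℕ} [NeZero N]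

/-! ### compatibility of `iota` with the transition maps -/

theorem zetaU_mul_pow {m k : ℕ} (hk : k ≠ 0) : Glue.zetaU (m * k) ^ k = Glue.zetaU m := by
  apply Units.ext
  rw [Units.val_pow_eq_pow_val]
  show Complex.exp _ ^ k = Complex.exp _
  rw [← Complex.exp_nat_mul]
  congr 1
  have : (k : ℂ) ≠ 0 := by exact_mod_cast hk
  push_cast
  by_cases hm : (m : ℂ) = 0
  · simp [hm]
  · field_simp

theorem expChar_mul_pow {m k : ℕ} (hk : k ≠ 0) (φ : Additive (Gamma0 N) →+ ℤ) :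
    expChar N (m * k) φ ^ k = expChar N m φ := by
  ext γ
  rw [MonoidHom.pow_apply, expChar_apply, expChar_apply, ← zpow_natCast, ← zpow_mul,
    mul_comm (φ _), zpow_mul, zpow_natCast, zetaU_mul_pow hk]

theorem chrD_incl {m k : ℕ} (hm : 0 < m) (hm' : 0 < m * k) (hd : m ∣ m * k) (f : Dm N (m * k)) :
    chrD hm (incl hd f) = chrD hm' f ^ k :=
  chrD_eq hm (chrD_spec hm' f).of_mul

theorem trans_iota {m k : ℕ} (hm : 0 < m) (hm' : 0 < m * k) (hd : m ∣ m * k)
    (c : Fin (rk N) → ℤ) : trans hd (iota hm' c) = iota hm c := by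
  have hk : k ≠ 0 := by
    rintro rfl
    simp at hm'
  apply chr_injective hm
  rw [iota_apply, trans_mk, chr_mk, chrD_incl hm hm', chrD_rep, expChar_mul_pow hk, chr_iota]

theorem trans_iota' {m m' : ℕ} (hm : 0 < m) (hm' : 0 < m') (hd : m ∣ m')
    (c : Fin (rk N) → ℤ) : trans hd (iota hm' c) = iota hm c := by
  obtain ⟨k, rfl⟩ := hd
  exact trans_iota hm hm' _ c

/-! ### the lattice in the Tate module -/

variable {p : ℕ}

/-- `Λ = ℤ ^ rk → T`. -/
def lat (hp : 0 < p) : (Fin (rk N) → ℤ) →+ Tate N p :=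
  AddMonoidHom.mk' (fun c => ⟨fun n => iota (pow_pos hp n) c, fun _ => trans_iota' _ _ _ c⟩)
    (fun c c' => Tate.ext fun n => map_add (iota (pow_pos hp n)) c c')

theorem lat_apply (hp : 0 < p) (c : Fin (rk N) → ℤ) (n : ℕ) :
    (lat hp c).1 n = iota (pow_pos hp n) c := rfl

theorem hecke_lat (hp : 0 < p) (ℓ : D.GoodPrime N) (c : Fin (rk N) → ℤ) :
    Tate.hecke N p ℓ (lat hp c) = lat hp ((matT N ℓ).mulVec c) :=
  Tate.ext fun n => by
    rw [Tate.hecke_apply, lat_apply, lat_apply, iota_matT]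

theorem lat_indep (hp : 0 < p) (c : Fin (rk N) → ℤ) (h : ∃ y : Tate N p, lat hp c = p • y) :
    ∀ j, (p : ℤ) ∣ c j := by
  obtain ⟨y, hy⟩ := h
  have h1 : iota (N := N) (pow_pos hp 1) c = 0 := by
    rw [← lat_apply hp, hy, Tate.nsmul_apply]
    have h2 := Kum.nsmul_eq_zero (y.1 1)
    have h3 : p ^ 1 • y.1 1 = p • y.1 1 := congrArg (fun k : ℕ => k • y.1 1) (pow_one p)
    rw [← h3, h2]
  obtain ⟨c', rfl⟩ := iota_ker _ c h1
  intro j
  rw [pow_one]
  exact ⟨c' j, by simp⟩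

theorem sum_smul_lat (hp : 0 < p) (a : Fin (rk N) → ℤ) :
    ∑ j, a j • lat (N := N) hp (Pi.single j 1) = lat hp a := by
  simp only [← map_zsmul, ← map_sum]
  congr 1
  funext i
  simp [Finset.sum_apply, Pi.single_apply]

/-! ### linear algebra -/

theorem map_mulVec_single {r : ℕ} {𝒪 K : Type} [CommRing 𝒪] [Field K] [Algebra 𝒪 K]
    (M : Matrix (Fin r) (Fin r) 𝒪) (k : Fin r) :
    (M.map (algebraMap 𝒪 K)).mulVec (Pi.single k 1)
      = fun i => algebraMap 𝒪 K (M.mulVec (Pi.single k 1) i) := by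
  funext i
  rw [Matrix.mulVec_single_one, Matrix.mulVec_single_one]
  rfl

theorem eigen_aux {r s : ℕ} (emb : Fin s → Fin r) {𝒪 K : Type} [CommRing 𝒪] [Field K]
    [Algebra 𝒪 K] (M : Matrix (Fin r) (Fin r) 𝒪) (A : Matrix (Fin s) (Fin s) ℤ)
    (hM : ∀ j, M.mulVec (Pi.single (emb j) 1) = ∑ i, (A i j : 𝒪) • Pi.single (emb i) 1)
    (c : Fin s → K) (a : K) (hc : ∀ i, ∑ j, c j * (A i j : K) = a * c i) :
    (M.map (algebraMap 𝒪 K)).mulVec (∑ j, c j • Pi.single (emb j) 1)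
      = a • ∑ j, c j • (Pi.single (emb j) 1 : Fin r → K) := by
  rw [Matrix.mulVec_sum]
  simp only [Matrix.mulVec_smul, map_mulVec_single, hM]
  funext i'
  simp only [Finset.sum_apply, Pi.smul_apply, smul_eq_mul, map_sum, map_mul, map_intCast,
    Finset.mul_sum]
  rw [Finset.sum_comm]
  refine Finset.sum_congr rfl fun i _ => ?_
  have h1 : ∀ x : Fin s, c x * ((A i x : K) * algebraMap 𝒪 K ((Pi.single (emb i) 1 : Fin r → 𝒪) i'))
      = (c x * (A i x : K)) * ((Pi.single (emb i) 1 : Fin r → K) i') := by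
    intro x
    rw [mul_assoc]
    congr 2
    by_cases h : i' = emb i
    · subst h; simp
    · simp [h]
  simp only [h1, ← Finset.sum_mul, hc]
  ring

/-! ### the tower -/

/-- **The `p`-adic Eichler-Shimura module exists**, given CRUX. -/
theorem nonempty_adicTower (hp : p.Prime)
    (hcrux : ∀ ℓ n : ℕ, ℓ.Prime → ¬ ℓ ∣ N * p → Crux N ℓ (p ^ n))
    {𝒪 : Type} [CommRing 𝒪] (I : Ideal 𝒪) [IsAdicComplete I 𝒪] (hpI : (p : 𝒪) ∈ I) :
    Nonempty (AdicTower N p 𝒪 I) := by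
  have hp0 : p ≠ 0 := hp.ne_zero
  have hpp : 0 < p := hp.pos
  obtain ⟨r, emb, lam, hat, hemb, hv, hsurj, hhat⟩ :=
    exists_hat hp (Tate.isTate (N := N) hp0 (finite_Kum (pow_pos hpp 1)))
      (fun j => lat (N := N) hpp (Pi.single j 1))
      (fun a ha => lat_indep hpp a (by rwa [sum_smul_lat] at ha)) I hpI
  choose x hx using hsurj
  -- entries of `hat Φ`
  have hentry : ∀ (Φ : AddMonoid.End (Tate N p)) (i j : Fin r), hat Φ i j = lam (Φ (x j)) i := by
    intro Φ i j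
    rw [← hhat, hx, Matrix.mulVec_single_one]
    rfl
  refine ⟨{
    r := r
    R := hat.toMonoidHom.comp (Tate.gal N p)
    T := fun ℓ => hat (Tate.hecke N p ℓ)
    T_comm := fun ℓ ℓ' => (Tate.hecke_comm ℓ ℓ').map hat
    T_R_comm := fun ℓ σ => (Tate.hecke_gal_comm ℓ σ).map hat
    level := ?_
    unram := ?_
    es := ?_
    eigen := ?_ }⟩
  · intro n
    obtain ⟨L, hL, h⟩ := Tate.level (N := N) hp0 n (finite_Kum (pow_pos hpp n))
    refine ⟨L, hL, fun σ hσ i j => ?_⟩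
    have h1 : (hat.toMonoidHom.comp (Tate.gal N p)) σ - 1 = hat (Tate.gal N p σ - 1) := by
      rw [map_sub, map_one]
      rfl
    obtain ⟨y, hy⟩ := h σ hσ (x j)
    have h2 : (Tate.gal N p σ - 1 : AddMonoid.End (Tate N p)) (x j) = p ^ n • y := hy
    rw [h1, hentry, h2, map_nsmul, Pi.smul_apply, nsmul_eq_mul, Nat.cast_pow]
    exact Ideal.mul_mem_right _ _ (Ideal.pow_mem_pow hpI n)
  · intro q hq hqN A hA σ hσ
    show hat (Tate.gal N p σ) = 1
    rw [Tate.unram hp0 (fun n => hcrux q n hq hqN) A hA σ hσ, map_one]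
  · intro ℓ hℓp A hA φ hφ
    have hℓN : ¬ ℓ.1 ∣ N * p := fun h => (ℓ.2.1.dvd_mul.mp h).elim ℓ.2.2
      fun h' => hℓp ((Nat.prime_dvd_prime_iff_eq ℓ.2.1 hp).mp h')
    have h1 := congrArg hat (Tate.es hp0 ℓ (fun n => hcrux ℓ.1 n ℓ.2.1 hℓN) A hA φ hφ)
    rw [map_add, map_sub, map_mul, map_mul, map_natCast, map_zero] at h1
    rw [← h1]
    congr 1
    rw [Nat.cast_smul_eq_nsmul, nsmul_eq_mul, mul_one]
  · intro K _ _ S χ
    obtain ⟨c', hc'0, hc'⟩ := exists_eigen_coords_of_ringHom N S χ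
    refine ⟨∑ j, c' j • Pi.single (emb j) 1, ?_, fun ℓ hℓ hℓN hℓS => ?_⟩
    · intro h0
      apply hc'0
      funext j
      have := congrFun h0 (emb j)
      simpa [Finset.sum_apply, Pi.single_apply, hemb.eq_iff] using this
    · have : Fact ℓ.Prime := ⟨hℓ⟩
      refine eigen_aux emb _ (matT N ⟨ℓ, hℓ, hℓN⟩) ?_ c' _ (fun i => hc' ℓ hℓN hℓS i)
      intro j
      rw [← hv, hhat, hecke_lat, ← sum_smul_lat, map_sum]
      refine Finset.sum_congr rfl fun i _ => ?_
      rw [map_zsmul, hv, Matrix.mulVec_single_one, ← Int.cast_smul_eq_zsmul 𝒪]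
      rfl

end

end Fermat.Agent.S30
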