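/-
S30 from CRUX: `ES/D/Adic/S30Of` (helper92) applied to the tower of `S30/Build`.
-/
import Fermat.Agent.S30.Build
import Fermat.Agent.ES.D.Adic.S30Of
import Fermat.Agent.Lib.FrobDensity.ForES

set_option autoImplicit false

open Polynomial

namespace Fermat.Agent.S30

open Fermat.Agent.ES

/-- conversion to the structure used by `ES/D/Adic`. -/
def AdicTower.toD {N : ℕ} [NeZero N] {p : ℕ} {𝒪 : Type} [CommRing 𝒪] {I : Ideal 𝒪}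
    (E : AdicTower N p 𝒪 I) : D.AdicTower N p 𝒪 I where
  r := E.r
  R := E.R
  T := E.T
  T_R_comm := E.T_R_comm
  level := E.level
  unram := E.unram
  es := E.es
  eigen := fun K _ _ S χ => by
    obtain ⟨v, hv0, hv⟩ := E.eigen K S χ
    exact ⟨v, hv0, fun ℓ hℓS => hv ℓ.1 ℓ.2.1 ℓ.2.2 hℓS⟩

/-- the `p`-adic Eichler-Shimura module, in the form used by `ES/D/Adic`, given CRUX. -/
theorem nonempty_adicTowerD {N : ℕ} [NeZero N] {p : ℕ} (hp : p.Prime)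
    (hcrux : ∀ ℓ n : ℕ, ℓ.Prime → ¬ ℓ ∣ N * p → Crux N ℓ (p ^ n))
    {𝒪 : Type} [CommRing 𝒪] (I : Ideal 𝒪) [IsAdicComplete I 𝒪] (hpI : (p : 𝒪) ∈ I) :
    Nonempty (D.AdicTower N p 𝒪 I) :=
  (nonempty_adicTower hp hcrux I hpI).map AdicTower.toD

/-- **S30 from CRUX.** -/
theorem of_crux
    (hcrux : ∀ (N ℓ m : ℕ) [NeZero N], ℓ.Prime → ¬ ℓ ∣ N → ¬ ℓ ∣ m → Crux N ℓ m) :
    ∀ (p : ℕ) [Fact p.Prime] (N : ℕ) [NeZero N] (S : Finset ℕ)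
      (_hpS : p ∈ S) (_hNS : ∀ q : ℕ, q.Prime → q ∣ N → q ∈ S)
      (𝒪' : Type) [CommRing 𝒪'] [IsDomain 𝒪'] [IsDiscreteValuationRing 𝒪']
      [IsAdicComplete (IsLocalRing.maximalIdeal 𝒪') 𝒪'] [Finite (IsLocalRing.ResidueField 𝒪')]
      [CharZero 𝒪'] (_hp𝒪' : (p : 𝒪') ∈ IsLocalRing.maximalIdeal 𝒪')
      (χ : CuspForm.heckeAlgebra N 2 (↑S : Set ℕ) →+* 𝒪'),
      ∃ (𝒪'' : Type) (_ : CommRing 𝒪'') (_ : IsDomain 𝒪'') (_ : IsDiscreteValuationRing 𝒪'')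
        (_ : IsAdicComplete (IsLocalRing.maximalIdeal 𝒪'') 𝒪'')
        (_ : Finite (IsLocalRing.ResidueField 𝒪'')) (_ : CharZero 𝒪'')
        (_ : Algebra 𝒪' 𝒪'') (_ : Module.Finite 𝒪' 𝒪'') (_ : IsLocalHom (algebraMap 𝒪' 𝒪'')),
      Function.Injective (algebraMap 𝒪' 𝒪'') ∧
      ∃ ρ : GaloisRepAdic 𝒪'',
        (∀ (ℓ : ℕ) (hℓ : ℓ.Prime) (hℓN : ¬ ℓ ∣ N) (hℓS : ℓ ∉ (↑S : Set ℕ)),
          ∀ A : ValuationSubring (AlgebraicClosure ℚ), A.LiesOverPrime ℓ →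
            ∀ σ : AlgebraicClosure ℚ ≃ₐ[ℚ] AlgebraicClosure ℚ, A.IsFrobeniusAt σ ℓ →
              LinearMap.charpoly (ρ.ρ σ) =
                X ^ 2 - C (algebraMap 𝒪' 𝒪'' (χ (CuspForm.heckeAlgebra.T hℓ hℓN hℓS))) * X
                  + C ((ℓ : 𝒪''))) ∧
        (∀ q : ℕ, q.Prime → ¬ q ∣ N → q ≠ p → ρ.IsUnramifiedAt q) :=
  D.S30_of FD.frobPowerDensity fun N _ p hp 𝒪 _ I _ hpI =>
    nonempty_adicTowerD hp (fun ℓ n hℓ hℓNp => hcrux N ℓ (p ^ n) hℓ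
      (fun h => hℓNp (h.mul_right p))
      (fun h => hℓNp ((hℓ.dvd_of_dvd_pow h).mul_left N))) I hpI

end Fermat.Agent.S30
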